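import Fermat.Agent.KumF.DSlash

/-! # The field of modular functions over `ℂ`, and descent of the field of constants. -/

set_option autoImplicit false

open UpperHalfPlane ModularForm Complex Filter Topology Matrix.SpecialLinearGroup
open scoped MatrixGroups Manifold

namespace Fermat.Agent.KumF

open Fermat.Agent.MFLib Fermat.Agent.Kum ModularCurve Fermat.Agent.ModPoly Fermat.Agent.Dim

noncomputable section

local notation "Δ" => ModularForm.discriminant

section forms

variable (N : ℕ) [NeZero N]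

lemma coeffMap_id' (x : LaurentSeries ℂ) : coeffMap (RingHom.id ℂ) x = x := by
  ext n
  rw [coeffMap_coeff]
  rfl

/-- a form of weight `12 n` divided by `Δ^n` is a modular function -/
theorem form_mem {n : ℕ} {f : ℍ → ℂ} (hf : IsMF (G0 N) (12 * n) f) :
    ql f * deltaInvC ℂ ^ n ∈ FK ℂ N := by
  let W : Submodule ℂ (mf (G0 N) (12 * n)) :=
    { carrier := {f | ql (f : ℍ → ℂ) * deltaInvC ℂ ^ n ∈ FK ℂ N}
      add_mem' := by
        intro a b ha hb
        change ql ((a : ℍ → ℂ) + (b : ℍ → ℂ)) * deltaInvC ℂ ^ n ∈ FK ℂ N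
        rw [ql_add (a.2.qg (MFLib.T_mem_Gamma0 N)) (b.2.qg (MFLib.T_mem_Gamma0 N)), add_mul]
        exact add_mem ha hb
      zero_mem' := by
        change ql (0 : ℍ → ℂ) * deltaInvC ℂ ^ n ∈ FK ℂ N
        rw [ql_zero, zero_mul]
        exact zero_mem _
      smul_mem' := by
        intro c a ha
        change ql (c • (a : ℍ → ℂ)) * deltaInvC ℂ ^ n ∈ FK ℂ N
        rw [ql_smul c (a.2.qg (MFLib.T_mem_Gamma0 N)), mul_assoc]
        refine mul_mem ?_ ha
        have := X0Genus.const_mem (K := ℂ) N c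
        rwa [algebraMap_laurentSeries_eq_single] at this }
  have hW : W = ⊤ := by
    rw [eq_top_iff, ← GenusRR.span_rational_mf N (12 * n), Submodule.span_le]
    intro f hf
    change ql (f : ℍ → ℂ) * deltaInvC ℂ ^ n ∈ FK ℂ N
    have h1 : IsRat (qe (f : ℍ → ℂ)) := fun m => by
      obtain ⟨r, hr⟩ := hf m
      exact ⟨r, hr⟩
    obtain ⟨y, hy⟩ := GenusRR.mem_SF.mp (GenusRR.form_mem_SF N (RingHom.id ℂ) f.2 h1)
    rw [coeffMap_id'] at hy
    have h2 : ql (f : ℍ → ℂ) = GenusRR.qL (f : ℍ → ℂ) := rfl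
    rw [h2, ← hy]
    exact y.2
  have : (⟨f, hf⟩ : mf (G0 N) (12 * n)) ∈ W := by rw [hW]; exact Submodule.mem_top
  exact this

/-- **(P2)** -/
theorem MFun_le {x : LaurentSeries ℂ} (hx : x ∈ MFun N) : x ∈ FK ℂ N := by
  obtain ⟨k, f, g, h⟩ := hx
  -- reduce to nonnegative weight
  obtain ⟨n, f', g', h'⟩ : ∃ (n : ℕ) (f' g' : ℍ → ℂ), RepF N x n f' g' := by
    have hD : IsMF (G0 N) 12 Δ := isMF_disc.mono le_top
    have hD0 : (Δ : ℍ → ℂ) ≠ 0 := by
      intro h
      have h0 := discriminant_ne_zero UpperHalfPlane.I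
      rw [h] at h0
      exact h0 rfl
    have h1 : RepF N 1 (((-k).toNat : ℕ) * 12) (Δ ^ (-k).toNat) (Δ ^ (-k).toNat) :=
      { mf := hD.pow _
        mg := hD.pow _
        g0 := fun h => by
          have h0 := congrFun h UpperHalfPlane.I
          exact pow_ne_zero _ (discriminant_ne_zero UpperHalfPlane.I) h0
        eq := one_mul _ }
    have h2 := h.mul h1
    rw [mul_one] at h2
    have h3 : k + ((-k).toNat : ℕ) * 12 = ((k + ((-k).toNat : ℕ) * 12).toNat : ℕ) := by
      omega
    rw [h3] at h2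
    exact ⟨_, _, _, h2⟩
  have hq := h'.mg.qgN
  have hfq := h'.mf.qgN
  have e1 : IsMF (G0 N) (12 * n) (f' * g' ^ 11) :=
    (h'.mf.mul (h'.mg.pow 11)).congr_weight (by push_cast; ring)
  have e2 : IsMF (G0 N) (12 * n) (g' ^ 12) := (h'.mg.pow 12).congr_weight (by push_cast; ring)
  have m1 := form_mem N e1
  have m2 := form_mem N e2
  have hδ0 : deltaInvC ℂ ≠ 0 := fun h => by
    have := deltaC_mul_inv ℂ
    rw [h, mul_zero] at this
    exact zero_ne_one this
  have hg0 : ql g' ≠ 0 := by rw [ne_eq, ql_eq_zero hq]; exact h'.g0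
  have h3 : x = (ql (f' * g' ^ 11) * deltaInvC ℂ ^ n) / (ql (g' ^ 12) * deltaInvC ℂ ^ n) := by
    rw [ql_mul hfq (hq.pow 11), ql_pow hq, ql_pow hq, ← h'.eq, eq_div_iff
      (mul_ne_zero (pow_ne_zero _ hg0) (pow_ne_zero _ hδ0))]
    ring
  rw [h3]
  exact div_mem m1 m2

end forms

section descent

variable {K : Type*} [Field K] (ι : K →+* ℂ)

/-- apply an additive map to the coefficients -/
def mapA (lam : ℂ →+ K) (x : LaurentSeries ℂ) : LaurentSeries K :=
  ⟨fun n => lam (x.coeff n), x.isPWO_support.mono fun n hn => by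
    rw [HahnSeries.mem_support]
    intro h
    apply hn
    change lam (x.coeff n) = 0
    rw [h, map_zero]⟩

@[simp] lemma mapA_coeff (lam : ℂ →+ K) (x : LaurentSeries ℂ) (n : ℤ) :
    (mapA lam x).coeff n = lam (x.coeff n) := rfl

lemma mapA_add (lam : ℂ →+ K) (x y : LaurentSeries ℂ) :
    mapA lam (x + y) = mapA lam x + mapA lam y := by
  ext n
  simp

lemma mapA_zero (lam : ℂ →+ K) : mapA lam 0 = 0 := by
  ext n
  simp

lemma mapA_mul (lam : ℂ →+ K) (hlam : ∀ (a : K) (z : ℂ), lam (ι a * z) = a * lam z)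
    (x : LaurentSeries K) (y : LaurentSeries ℂ) :
    mapA lam (coeffMap ι x * y) = x * mapA lam y := by
  ext n
  rw [mapA_coeff, HahnSeries.coeff_mul, HahnSeries.coeff_mul, map_sum]
  have hs : (coeffMap ι x).support = x.support := by
    ext m
    rw [HahnSeries.mem_support, HahnSeries.mem_support, coeffMap_coeff, ne_eq, map_eq_zero]
  have h1 : ∀ p : ℤ × ℤ, lam ((coeffMap ι x).coeff p.1 * y.coeff p.2) =
      x.coeff p.1 * (mapA lam y).coeff p.2 := by
    intro p
    rw [coeffMap_coeff, hlam, mapA_coeff]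
  symm
  apply Finset.sum_subset_zero_on_sdiff
  · intro p hp
    rw [Finset.mem_antidiagonal] at hp ⊢
    refine ⟨?_, ?_, hp.2.2⟩
    · rw [hs]; exact hp.1
    · intro h
      apply hp.2.1
      rw [mapA_coeff, h, map_zero]
  · intro p hp
    rw [Finset.mem_sdiff, Finset.mem_antidiagonal, Finset.mem_antidiagonal] at hp
    rw [h1]
    by_contra hne
    apply hp.2
    refine ⟨?_, ?_, hp.1.2.2⟩
    · exact left_ne_zero_of_mul hne
    · exact right_ne_zero_of_mul hne
  · intro p _
    exact (h1 p).symm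

/-- enough `K`-linear functionals on `ℂ` -/
lemma exists_functional {z : ℂ} (hz : z ≠ 0) :
    ∃ lam : ℂ →+ K, (∀ (a : K) (z : ℂ), lam (ι a * z) = a * lam z) ∧ lam z ≠ 0 := by
  let _ : Algebra K ℂ := ι.toAlgebra
  obtain ⟨f, hf⟩ := Module.Projective.exists_dual_ne_zero K hz
  refine ⟨f.toAddMonoidHom, fun a z => ?_, hf⟩
  have := f.map_smul a z
  rw [Algebra.smul_def] at this
  exact this

variable [Algebra ℚ K] (N : ℕ)

/-- coefficientwise functionals map the `ℂ`-algebra spanned by the functions over `K` to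
the functions over `K` -/
lemma mapA_mem_of_adjoin {y : LaurentSeries ℂ}
    (hy : y ∈ Algebra.adjoin ℂ (coeffMap ι '' (FK K N : Set (LaurentSeries K)))) :
    ∀ (lam : ℂ →+ K) (_ : ∀ (a : K) (z : ℂ), lam (ι a * z) = a * lam z), mapA lam y ∈ FK K N := by
  have h1 : (coeffMap ι '' (FK K N : Set (LaurentSeries K))) =
      (((FK K N).toSubfield.map (coeffMap ι)).toSubring.toSubmonoid : Set (LaurentSeries ℂ)) := rfl
  rw [h1, ← Subalgebra.mem_toSubmodule, Algebra.adjoin_eq_span, Submonoid.closure_eq, ← h1] at hy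
  induction hy using Submodule.span_induction with
  | mem y hy =>
    intro lam hlam
    obtain ⟨x, hx, rfl⟩ := hy
    have h2 := mapA_mul ι lam hlam x 1
    rw [mul_one] at h2
    rw [h2]
    refine mul_mem hx ?_
    have h3 : mapA lam 1 = algebraMap K (LaurentSeries K) (lam 1) := by
      rw [algebraMap_laurentSeries_eq_single]
      ext n
      rw [mapA_coeff, HahnSeries.coeff_one, HahnSeries.coeff_single]
      split_ifs <;> simp
    rw [h3]
    exact X0Genus.const_mem N _
  | zero => intro lam _; rw [mapA_zero]; exact zero_mem _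
  | add a b _ _ ha hb => intro lam hlam; rw [mapA_add]; exact add_mem (ha lam hlam) (hb lam hlam)
  | smul c a _ ha =>
    intro lam hlam
    rw [Algebra.smul_def, algebraMap_laurentSeries_eq_single]
    have h2 : mapA lam (HahnSeries.single 0 c * a) =
        mapA (lam.comp (AddMonoidHom.mulLeft c)) a := by
      ext n
      have h3 : HahnSeries.single 0 c * a = HahnSeries.C c * a := rfl
      rw [mapA_coeff, mapA_coeff, h3, HahnSeries.C_mul_eq_smul, HahnSeries.coeff_smul, smul_eq_mul]
      rfl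
    rw [h2]
    apply ha
    intro x z
    change lam (c * (ι x * z)) = x * lam (c * z)
    rw [← hlam]
    congr 1
    ring

theorem FK_le_adjoin {y : LaurentSeries ℂ} (hy : y ∈ FK ℂ N) :
    y ∈ IntermediateField.adjoin ℂ (coeffMap ι '' (FK K N : Set (LaurentSeries K))) := by
  refine X0Genus.baseChange_le N
    (IntermediateField.adjoin ℂ (coeffMap ι '' (FK K N : Set (LaurentSeries K)))).toSubfield
    ?_ ?_ y hy
  · intro a
    exact IntermediateField.algebraMap_mem _ a
  · intro d _ hd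
    apply IntermediateField.subset_adjoin
    refine ⟨qExpand K d (jqModC K), X0Genus.jd_mem N d hd, ?_⟩
    rw [coeffMap_qExpand, coeffMap_jqModC]

/-- **(P3)** descent of the field of constants -/
theorem mem_FK_of_coeffMap_mem {x : LaurentSeries K} (hx : coeffMap ι x ∈ FK ℂ N) :
    x ∈ FK K N := by
  have h1 := FK_le_adjoin ι N hx
  rw [IntermediateField.mem_adjoin_iff_div] at h1
  obtain ⟨r, hr, s, hs, hrs⟩ := h1
  rcases eq_or_ne s 0 with h0 | h0
  · rw [h0, div_zero, map_eq_zero] at hrs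
    rw [hrs]
    exact zero_mem _
  · have h2 : coeffMap ι x * s = r := by rw [hrs, div_mul_cancel₀ _ h0]
    obtain ⟨n, hn⟩ : ∃ n, s.coeff n ≠ 0 := by
      by_contra hcon
      push Not at hcon
      exact h0 (HahnSeries.ext (funext hcon))
    obtain ⟨lam, hlam, hl⟩ := exists_functional ι hn
    have h3 := mapA_mul ι lam hlam x s
    rw [h2] at h3
    have h4 : mapA lam s ≠ 0 := by
      intro h
      apply hl
      have := congrArg (fun y => HahnSeries.coeff y n) h
      simpa using this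
    have h5 : x = mapA lam r / mapA lam s := by
      rw [h3, mul_div_cancel_right₀ _ h4]
    rw [h5]
    exact div_mem (mapA_mem_of_adjoin ι N hr lam hlam) (mapA_mem_of_adjoin ι N hs lam hlam)

/-- **(P3)** for modular functions -/
theorem mem_FK_of_mem_MFun [NeZero N] {x : LaurentSeries K} (hx : coeffMap ι x ∈ MFun N) :
    x ∈ FK K N := mem_FK_of_coeffMap_mem ι N (MFun_le N hx)

theorem coeffMap_mem_MFun_iff [NeZero N] {x : LaurentSeries K} :
    coeffMap ι x ∈ MFun N ↔ x ∈ FK K N :=
  ⟨mem_FK_of_mem_MFun ι N, fun h => coeffMap_mem_MFun ι h⟩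

theorem mem_MFun_iff [NeZero N] {x : LaurentSeries ℂ} : x ∈ MFun N ↔ x ∈ FK ℂ N := by
  refine ⟨MFun_le N, fun h => ?_⟩
  have := coeffMap_mem_MFun (RingHom.id ℂ) h
  rwa [coeffMap_id'] at this

omit [Algebra ℚ K] in
/-- a Laurent series with coefficients in the image of `ι` comes from `K((q))` -/
theorem exists_coeffMap_eq {x : LaurentSeries ℂ} (h : ∀ n, x.coeff n ∈ ι.range) :
    ∃ y : LaurentSeries K, coeffMap ι y = x := by
  choose c hc using h
  refine ⟨⟨c, x.isPWO_support.mono fun n hn => ?_⟩, ?_⟩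
  · rw [HahnSeries.mem_support, ← hc n]
    exact (map_ne_zero ι).mpr hn
  · ext n
    rw [coeffMap_coeff]
    exact hc n

theorem exists_FK_of_mem_MFun [NeZero N] {x : LaurentSeries ℂ} (hx : x ∈ MFun N)
    (h : ∀ n, x.coeff n ∈ ι.range) : ∃ y : FK K N, coeffMap ι (y : LaurentSeries K) = x := by
  obtain ⟨y, rfl⟩ := exists_coeffMap_eq ι h
  exact ⟨⟨y, mem_FK_of_mem_MFun ι N hx⟩, rfl⟩

end descent

end

end Fermat.Agent.KumF
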