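import Fermat.Agent.Kum.Places
import Fermat.Agent.MFLib.XNExp
import Fermat.Agent.GenusRR.Family

/-! # `F(dτ)` and its `q`-expansion; membership of `j(q^d)` in the field of modular functions. -/

set_option autoImplicit false

open UpperHalfPlane ModularForm Complex Filter Topology Matrix.SpecialLinearGroup
open scoped MatrixGroups Manifold

namespace Fermat.Agent.KumF

open Fermat.Agent.MFLib Fermat.Agent.Kum ModularCurve Fermat.Agent.ModPoly

noncomputable section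

local notation "Δ" => ModularForm.discriminant

variable (d : ℕ) [NeZero d] {k : ℤ} {F : ℍ → ℂ}

lemma slash_top (hF : IsMF ⊤ k F) (γ : SL(2, ℤ)) : F ∣[k] (γ : GL (Fin 2) ℝ) = F :=
  hF.slash γ (Subgroup.mem_top _)

lemma slash_matN_decomp (hF : IsMF ⊤ k F) (γ : SL(2, ℤ)) : ∃ (a b e : ℤ) (h : a * e = d),
    (F ∣[k] matN d) ∣[k] γ = F ∣[k] triMat d a b e h := by
  obtain ⟨δ, a, b, e, h, ha, hac, heq⟩ := exists_decomp d γ
  refine ⟨a, b, e, h, ?_⟩
  rw [SL_slash, ← SlashAction.slash_mul, heq, SlashAction.slash_mul, slash_top hF]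

lemma hb_slash_matN (hF : IsMF ⊤ k F) : HB k (F ∣[k] matN d) where
  holo := MDifferentiable.slash hF.holo k _
  bdd γ := by
    obtain ⟨a, b, e, h, heq⟩ := slash_matN_decomp d hF γ
    rw [heq]
    exact IsBoundedAtImInfty.slash k (by rw [triMat_apply]; simp) hF.toHB.bdd_self

lemma slash_matN_of_mem (hF : IsMF ⊤ k F) {γ : SL(2, ℤ)}
    (hγ : γ ∈ CongruenceSubgroup.Gamma0 d) : (F ∣[k] matN d) ∣[k] γ = F ∣[k] matN d := by
  rw [CongruenceSubgroup.Gamma0_mem, ZMod.intCast_zmod_eq_zero_iff_dvd] at hγ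
  obtain ⟨c, hc⟩ := hγ
  have hdet : γ 0 0 * γ 1 1 - γ 0 1 * γ 1 0 = 1 := by
    have := γ.det_coe
    rwa [Matrix.det_fin_two] at this
  let δ : SL(2, ℤ) := ⟨!![γ 0 0, d * γ 0 1; c, γ 1 1], by
    rw [Matrix.det_fin_two_of]; rw [hc] at hdet; linarith⟩
  have hc' := congrArg (fun z : ℤ => (z : ℝ)) hc
  push_cast at hc'
  have d00 : δ 0 0 = γ 0 0 := rfl
  have d01 : δ 0 1 = d * γ 0 1 := rfl
  have d10 : δ 1 0 = c := rfl
  have d11 : δ 1 1 = γ 1 1 := rfl
  have : matN d * (γ : GL (Fin 2) ℝ) = (δ : GL (Fin 2) ℝ) * matN d := by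
    apply Matrix.GeneralLinearGroup.ext
    intro i j
    rw [Matrix.GeneralLinearGroup.coe_mul, Matrix.GeneralLinearGroup.coe_mul, Matrix.mul_apply,
      Matrix.mul_apply, Fin.sum_univ_two, Fin.sum_univ_two]
    simp only [coe_entry, matN_apply]
    fin_cases i <;> fin_cases j
    · simp [d00, d01]; ring
    · simp [d00, d01]
    · simp [d10, d11]; linarith
    · simp [d10, d11]
  rw [SL_slash, ← SlashAction.slash_mul, this, SlashAction.slash_mul, slash_top hF]

/-- `F(dτ)` is modular for `Γ₀(d)` -/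
lemma isMF_slash_matN (hF : IsMF ⊤ k F) : IsMF (CongruenceSubgroup.Gamma0 d) k (F ∣[k] matN d) where
  toHB := hb_slash_matN d hF
  slash _ hγ := slash_matN_of_mem d hF hγ

lemma slash_matN_apply (k : ℤ) (F : ℍ → ℂ) (τ : ℍ) :
    (F ∣[k] matN d) τ = (d : ℂ) ^ (k - 1) * F (matN d • τ) := by
  have hN' : (0 : ℝ) < d := by exact_mod_cast Nat.pos_of_ne_zero (NeZero.ne d)
  have hdetM : (matN d).det.val = (d : ℝ) := by
    rw [Matrix.GeneralLinearGroup.val_det_apply, Matrix.det_fin_two]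
    simp only [matN_apply]
    simp
  have hdenM : denom (matN d) τ = 1 := by
    simp only [denom, matN_apply]; simp
  have hσM : UpperHalfPlane.σ (matN d) = ContinuousAlgEquiv.refl ℝ ℂ := by
    simp only [UpperHalfPlane.σ, hdetM, hN', ↓reduceIte]
  rw [slash_apply, hdetM, hdenM, hσM, abs_of_pos hN']
  simp only [ContinuousAlgEquiv.coe_refl', id_eq, one_zpow, mul_one]
  rw [mul_comm]
  norm_num

lemma hasSum_slash_matN (hF : QG F) (k : ℤ) (τ : ℍ) :
    HasSum (fun n : ℕ => (if d ∣ n then (d : ℂ) ^ (k - 1) * (qe F).coeff (n / d) else 0) •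
      Function.Periodic.qParam (1 : ℝ) τ ^ n) ((F ∣[k] matN d) τ) := by
  have hN : d ≠ 0 := NeZero.ne d
  have h1 := UpperHalfPlane.hasSum_qExpansion (h := 1) one_pos hF.per hF.holo hF.bdd
    (matN d • τ)
  have h2 := h1.mul_left ((d : ℂ) ^ (k - 1))
  rw [← slash_matN_apply] at h2
  have hinj : Function.Injective (fun m : ℕ => d * m) := fun a b h =>
    Nat.eq_of_mul_eq_mul_left (Nat.pos_of_ne_zero hN) h
  refine (hinj.hasSum_iff ?_).mp ?_
  · intro x hx
    have : ¬ d ∣ x := fun ⟨m, hm⟩ => hx ⟨m, hm.symm⟩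
    simp only [this, ↓reduceIte, zero_smul]
  · refine h2.congr_fun ?_
    intro m
    simp only [Function.comp_apply, Nat.dvd_mul_right, ↓reduceIte, smul_eq_mul,
      Nat.mul_div_cancel_left m (Nat.pos_of_ne_zero hN)]
    rw [qParam_matN, ← pow_mul, mul_assoc]

lemma coeff_qe_slash_matN (hF : IsMF ⊤ k F) (n : ℕ) : (qe (F ∣[k] matN d)).coeff n =
    if d ∣ n then (d : ℂ) ^ (k - 1) * (qe F).coeff (n / d) else 0 := by
  have hmf := isMF_slash_matN d hF
  have hqg : QG (F ∣[k] matN d) := hmf.qg (T_mem_Gamma0 d)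
  obtain ⟨c, hc⟩ : ∃ c : ℕ → ℂ, c = fun n => if d ∣ n then
      (d : ℂ) ^ (k - 1) * (qe F).coeff (n / d) else 0 := ⟨_, rfl⟩
  have h1 : ∀ τ : ℍ, HasSum (fun n : ℕ => c n • Function.Periodic.qParam (1 : ℝ) τ ^ n)
      (hmf.toForm τ) := by
    intro τ
    rw [hc]
    exact hasSum_slash_matN d hF.qg_top k τ
  have h2 := UpperHalfPlane.qExpansion_coeff_unique (hmf.toForm) (h := 1) one_pos
    hqg.analyticAt h1 n
  rw [hc] at h2
  exact h2.symm

theorem ql_slash_matN (hF : IsMF ⊤ k F) :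
    ql (F ∣[k] matN d) = HahnSeries.C ((d : ℂ) ^ (k - 1)) * qExpand ℂ d (ql F) := by
  ext m
  rw [HahnSeries.C_mul_eq_smul, HahnSeries.coeff_smul, smul_eq_mul]
  rcases lt_or_ge m 0 with hm | hm
  · have h1 : (ql (F ∣[k] matN d)).coeff m = 0 := ofPowerSeries_coeff_of_neg _ hm
    rw [h1]
    by_cases hd : (d : ℤ) ∣ m
    · obtain ⟨c, rfl⟩ := hd
      rw [qExpand_coeff_mul]
      have hc : c < 0 := by
        by_contra hc
        push Not at hc
        have : (0 : ℤ) ≤ d * c := mul_nonneg (by positivity) hc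
        omega
      rw [ql, ofPowerSeries_coeff_of_neg _ hc, mul_zero]
    · rw [qExpand_coeff_of_not_dvd _ _ hd, mul_zero]
  · obtain ⟨n, rfl⟩ := Int.eq_ofNat_of_zero_le hm
    have h1 : (ql (F ∣[k] matN d)).coeff (n : ℤ) = (qe (F ∣[k] matN d)).coeff n := by
      rw [ql, HahnSeries.ofPowerSeries_apply_coeff]
    rw [h1, coeff_qe_slash_matN d hF]
    by_cases hd : d ∣ n
    · obtain ⟨c, rfl⟩ := hd
      rw [if_pos (Dvd.intro _ rfl), Nat.mul_div_cancel_left _ (NeZero.pos d)]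
      have : (((d * c : ℕ) : ℤ)) = (d : ℤ) * (c : ℤ) := by push_cast; ring
      rw [this, qExpand_coeff_mul, ql, HahnSeries.ofPowerSeries_apply_coeff]
    · rw [if_neg hd, qExpand_coeff_of_not_dvd _ _ (by exact_mod_cast hd), mul_zero]

variable {d}

omit [NeZero d] in
lemma Gamma0_le_of_dvd {N : ℕ} (h : d ∣ N) :
    CongruenceSubgroup.Gamma0 N ≤ CongruenceSubgroup.Gamma0 d := by
  intro γ hγ
  rw [CongruenceSubgroup.Gamma0_mem, ZMod.intCast_zmod_eq_zero_iff_dvd] at hγ ⊢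
  exact (Int.natCast_dvd_natCast.mpr h).trans hγ

/-- a quotient of level one forms, in the variable `q^d`, is a modular function of level `N` -/
theorem repF_qExpand {N : ℕ} (hd : d ∣ N) {x : LaurentSeries ℂ} {k : ℤ} {f g : ℍ → ℂ}
    (hf : IsMF ⊤ k f) (hg : IsMF ⊤ k g) (hg0 : g ≠ 0) (hx : x * ql g = ql f) :
    RepF N (qExpand ℂ d x) k (f ∣[k] matN d) (g ∣[k] matN d) where
  mf := (isMF_slash_matN d hf).mono (Gamma0_le_of_dvd hd)
  mg := (isMF_slash_matN d hg).mono (Gamma0_le_of_dvd hd)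
  g0 := by
    intro h
    have h1 : (g ∣[k] matN d) ∣[k] (matN d)⁻¹ = 0 := by rw [h, SlashAction.zero_slash]
    rw [← SlashAction.slash_mul, mul_inv_cancel, SlashAction.slash_one] at h1
    exact hg0 h1
  eq := by
    rw [ql_slash_matN d hf, ql_slash_matN d hg, ← hx, map_mul]
    ring

lemma isMF_E4_cube : IsMF ⊤ 12 ((⇑E₄ : ℍ → ℂ) ^ 3) :=
  (Fermat.Agent.Dim.isMF_E4.pow 3).congr_weight (by norm_num)

theorem qExpand_j_mem_MFun {N : ℕ} (hd : d ∣ N) : qExpand ℂ d (jqModC ℂ) ∈ MFun N := by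
  refine ⟨12, _, _, repF_qExpand hd isMF_E4_cube isMF_disc ?_ ?_⟩
  · intro h
    have h0 := discriminant_ne_zero UpperHalfPlane.I
    rw [h] at h0
    exact h0 rfl
  · have h1 : ql Δ = deltaC ℂ := GenusRR.qL_disc
    have h2 : ql ((⇑E₄ : ℍ → ℂ) ^ 3) = eisC ℂ ^ 3 := by
      rw [ql_pow qg_E4]
      exact congrArg (· ^ 3) GenusRR.qL_E4
    rw [h1, h2, jqModC_mul_delta]

theorem const_mem_MFun {N : ℕ} (c : ℂ) : HahnSeries.C c ∈ MFun N := ⟨_, _, _, RepF.const c⟩

/-- **(P1)** -/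
theorem coeffMap_mem_MFun {K : Type*} [Field K] [Algebra ℚ K] {N : ℕ} (ι : K →+* ℂ)
    {x : LaurentSeries K} (hx : x ∈ FK K N) : coeffMap ι x ∈ MFun N := by
  refine X0Genus.baseChange_le N ((MFun N).comap (coeffMap ι)) ?_ ?_ x hx
  · intro a
    change coeffMap ι (algebraMap K (LaurentSeries K) a) ∈ MFun N
    rw [algebraMap_laurentSeries_eq_single, coeffMap_single]
    exact const_mem_MFun (ι a)
  · intro d _ hd
    change coeffMap ι (qExpand K d (jqModC K)) ∈ MFun N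
    rw [coeffMap_qExpand, coeffMap_jqModC]
    exact qExpand_j_mem_MFun hd

end

end Fermat.Agent.KumF
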